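/-
S14, block U2 (abstract algebra): eigenvectors modulo `p` in a quasi-cyclic torsion-free
`ℤ[T]`-module with `T^(p-1) = 1` are dependent modulo `p`.
-/
import Mathlib

set_option autoImplicit false

namespace Fermat.Agent.S14.U2

section Dv

variable {M : Type*} [AddCommGroup M]

/-- `Dv q x`: the element `x` is divisible by the integer `q`. -/
def Dv (q : ℤ) (x : M) : Prop := ∃ y, x = q • y

theorem Dv.add {q : ℤ} {x y : M} (hx : Dv q x) (hy : Dv q y) : Dv q (x + y) := by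
  obtain ⟨a, rfl⟩ := hx
  obtain ⟨b, rfl⟩ := hy
  exact ⟨a + b, (smul_add _ _ _).symm⟩

theorem Dv.neg {q : ℤ} {x : M} (hx : Dv q x) : Dv q (-x) := by
  obtain ⟨a, rfl⟩ := hx
  exact ⟨-a, (smul_neg _ _).symm⟩

theorem Dv.sub {q : ℤ} {x y : M} (hx : Dv q x) (hy : Dv q y) : Dv q (x - y) := by
  rw [sub_eq_add_neg]
  exact hx.add hy.neg

theorem Dv.zsmul {q : ℤ} {x : M} (hx : Dv q x) (a : ℤ) : Dv q (a • x) := by
  obtain ⟨b, rfl⟩ := hx
  exact ⟨a • b, smul_comm _ _ _⟩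

theorem Dv.map {q : ℤ} {x : M} (hx : Dv q x) (f : M →+ M) : Dv q (f x) := by
  obtain ⟨b, rfl⟩ := hx
  exact ⟨f b, map_zsmul f _ _⟩

theorem Dv.of_dvd {q a : ℤ} (h : q ∣ a) (x : M) : Dv q (a • x) := by
  obtain ⟨b, rfl⟩ := h
  exact ⟨b • x, mul_smul _ _ _⟩

theorem Dv.mono {q r : ℤ} (h : r ∣ q) {x : M} (hx : Dv q x) : Dv r x := by
  obtain ⟨b, rfl⟩ := hx
  exact Dv.of_dvd h b

theorem Dv.zero (q : ℤ) : Dv q (0 : M) := ⟨0, (smul_zero _).symm⟩

theorem Dv.sum {q : ℤ} {ι : Type*} (s : Finset ι) (f : ι → M) (h : ∀ i ∈ s, Dv q (f i)) :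
    Dv q (∑ i ∈ s, f i) := by
  classical
  induction s using Finset.induction_on with
  | empty => simpa using Dv.zero q
  | insert a s ha ih =>
    rw [Finset.sum_insert ha]
    exact (h a (Finset.mem_insert_self a s)).add
      (ih fun i hi => h i (Finset.mem_insert_of_mem hi))

theorem Dv.cancel (htf : ∀ (n : ℤ) (x : M), n ≠ 0 → n • x = 0 → x = 0) {q r : ℤ} (hq : q ≠ 0)
    {x : M} (h : Dv (q * r) (q • x)) : Dv r x := by
  obtain ⟨y, hy⟩ := h
  refine ⟨y, ?_⟩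
  have : q • (x - r • y) = 0 := by
    rw [smul_sub, hy, mul_smul, sub_self]
  exact sub_eq_zero.mp (htf q _ hq this)

theorem Dv.of_isCoprime {m q : ℤ} (h : IsCoprime m q) {x : M} (hx : Dv q (m • x)) : Dv q x := by
  obtain ⟨a, b, hab⟩ := h
  have : x = a • (m • x) + (b * q) • x := by
    rw [← mul_smul, ← add_smul, hab, one_smul]
  rw [this]
  exact (hx.zsmul a).add (Dv.of_dvd (Dvd.intro_left b rfl) x)

/-- Iterating an eigenvector congruence. -/
theorem Dv.iterate {q C : ℤ} (T : M →+ M) {x : M} (h : Dv q (T x - C • x)) (i : ℕ) :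
    Dv q (T^[i] x - C ^ i • x) := by
  induction i with
  | zero => simpa using Dv.zero q
  | succ i ih =>
    have : T^[i + 1] x - C ^ (i + 1) • x = T (T^[i] x - C ^ i • x) + C ^ i • (T x - C • x) := by
      rw [Function.iterate_succ_apply', map_sub, map_zsmul, smul_sub, ← mul_smul, pow_succ]
      abel
    rw [this]
    exact (ih.map T).add (h.zsmul _)

end Dv

/-- A Teichmueller-like approximation. -/
theorem exists_teich (p : ℕ) [Fact p.Prime] (c : ℤ) (hc : ¬ (p : ℤ) ∣ c) (k : ℕ) :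
    ∃ C : ℤ, (p : ℤ) ∣ C - c ∧ (p : ℤ) ^ (k + 1) ∣ C ^ (p - 1) - 1 := by
  have hp : p.Prime := Fact.out
  refine ⟨c ^ p ^ k, ?_, ?_⟩
  · rw [← ZMod.intCast_zmod_eq_zero_iff_dvd]
    push_cast
    rw [ZMod.pow_card_pow, sub_self]
  · have hcop : IsCoprime c (p : ℤ) :=
      ((Nat.prime_iff_prime_int.mp hp).coprime_iff_not_dvd.mpr hc).symm
    have h1 : (p : ℤ) ∣ c ^ (p - 1) - 1 :=
      (Int.ModEq.pow_card_sub_one_eq_one hp hcop).symm.dvd
    have h2 := dvd_sub_pow_of_dvd_sub (R := ℤ) (p := p) (a := c ^ (p - 1)) (b := 1)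
      (by exact_mod_cast h1) k
    rw [one_pow, ← pow_mul, mul_comm (p - 1), pow_mul] at h2
    exact_mod_cast h2

/-- Descent step. -/
theorem descent {M : Type*} [AddCommGroup M]
    (htf : ∀ (n : ℤ) (x : M), n ≠ 0 → n • x = 0 → x = 0) {P : ℤ} (hP : P ≠ 0) (y₁ y₂ : M) :
    ∀ (s : ℕ) (a b : ℤ), Dv (P ^ s) (a • y₁ - b • y₂) → ¬ P ^ s ∣ b →
      ∃ a' b' : ℤ, ¬ (P ∣ a' ∧ P ∣ b') ∧ Dv P (a' • y₁ - b' • y₂) := by
  intro s
  induction s with
  | zero => intro a b _ hb; exact absurd (by simp) hb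
  | succ s ih =>
    intro a b h hb
    by_cases hab : P ∣ a ∧ P ∣ b
    · obtain ⟨⟨a₁, rfl⟩, ⟨b₁, rfl⟩⟩ := hab
      refine ih a₁ b₁ ?_ ?_
      · apply Dv.cancel htf hP
        rw [smul_sub, ← mul_smul, ← mul_smul, ← pow_succ']
        exact h
      · intro hb₁
        apply hb
        rw [pow_succ']
        exact mul_dvd_mul_left P hb₁
    · exact ⟨a, b, hab, h.mono (dvd_pow_self P (Nat.succ_ne_zero s))⟩

theorem eigen_dependent {M : Type*} [AddCommGroup M]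
    (htf : ∀ (n : ℤ) (x : M), n ≠ 0 → n • x = 0 → x = 0)
    (p : ℕ) [Fact p.Prime] (T : M →+ M) (hT : ∀ x, T^[p - 1] x = x)
    (u0 : M) (hcyc : ∀ x : M, ∃ n : ℤ, n ≠ 0 ∧ ∃ a : ℕ → ℤ,
      n • x = ∑ i ∈ Finset.range (p - 1), a i • T^[i] u0)
    (c : ℤ) (x₁ x₂ : M) (h₁ : ∃ y, T x₁ - c • x₁ = (p : ℤ) • y)
    (h₂ : ∃ y, T x₂ - c • x₂ = (p : ℤ) • y)
    (hx₁ : ¬ ∃ y, x₁ = (p : ℤ) • y) : ∃ (k : ℤ) (y : M), x₂ = k • x₁ + (p : ℤ) • y := by
  have hp : p.Prime := Fact.out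
  have hPp : Prime (p : ℤ) := Nat.prime_iff_prime_int.mp hp
  have hP0 : (p : ℤ) ≠ 0 := hPp.ne_zero
  have hN : 0 < p - 1 := Nat.sub_pos_of_lt hp.one_lt
  have h₁' : Dv (p : ℤ) (T x₁ - c • x₁) := h₁
  have h₂' : Dv (p : ℤ) (T x₂ - c • x₂) := h₂
  have hx₁' : ¬ Dv (p : ℤ) x₁ := hx₁
  -- step 0
  have hc : ¬ (p : ℤ) ∣ c := by
    intro hpc
    apply hx₁'
    have h := h₁'.iterate T (p - 1)
    rw [hT] at h
    have h3 : Dv (p : ℤ) (c ^ (p - 1) • x₁) := Dv.of_dvd (dvd_pow hpc hN.ne') x₁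
    have : x₁ = (x₁ - c ^ (p - 1) • x₁) + c ^ (p - 1) • x₁ := by abel
    rw [this]
    exact h.add h3
  -- step 1
  obtain ⟨n₁, hn₁, a₁, ha₁⟩ := hcyc x₁
  obtain ⟨n₂, hn₂, a₂, ha₂⟩ := hcyc x₂
  have hn : n₁ * n₂ ≠ 0 := mul_ne_zero hn₁ hn₂
  have hfin : FiniteMultiplicity (p : ℤ) (n₁ * n₂) := by
    rw [Int.finiteMultiplicity_iff]
    exact ⟨by simpa using hp.one_lt.ne', hn⟩
  obtain ⟨m, hm, hpm⟩ := hfin.exists_eq_pow_mul_and_not_dvd
  set j := multiplicity (p : ℤ) (n₁ * n₂) with hj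
  obtain ⟨C, hCc, hCN⟩ := exists_teich p c hc (2 * j)
  -- the operator Q
  let E := AddMonoid.End M
  let T' : E := T
  let Q : E := ∑ i ∈ Finset.range (p - 1), T' ^ i * (C : E) ^ (p - 1 - 1 - i)
  have hcomm : Commute T' (C : E) := Int.commute_cast T' C
  have hTN : T' ^ (p - 1) = 1 := by
    ext x
    rw [AddMonoid.End.coe_pow]
    exact hT x
  have hQ1 : (T' - (C : E)) * Q = 1 - (C : E) ^ (p - 1) := by
    rw [hcomm.mul_geom_sum₂, hTN]
  have hQ2 : Q * (T' - (C : E)) = 1 - (C : E) ^ (p - 1) := by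
    rw [hcomm.geom_sum₂_mul, hTN]
  have hQT : Q * T' = T' * Q := by
    have h := hQ2.trans hQ1.symm
    rw [mul_sub, sub_mul, (Int.commute_cast Q C).eq] at h
    exact sub_left_injective h
  have hcast : ∀ (a : ℤ) (x : M), (a : E) x = a • x := fun a x => AddMonoid.End.intCast_apply a x
  have hcastpow : ∀ (a : ℤ) (i : ℕ) (x : M), ((a : E) ^ i) x = a ^ i • x := by
    intro a i x
    rw [← Int.cast_pow, hcast]
  have hQeig : ∀ x : M, Dv ((p : ℤ) ^ (2 * j + 1)) (T (Q x) - C • Q x) := by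
    intro x
    have h := congrArg (fun f : E => f x) hQ1
    have h' : T (Q x) - C • Q x = x - C ^ (p - 1) • x := by
      have e1 : ((T' - (C : E)) * Q) x = T (Q x) - C • Q x := by
        show T (Q x) - (C : E) (Q x) = _
        rw [hcast]
      have e2 : (1 - (C : E) ^ (p - 1)) x = x - C ^ (p - 1) • x := by
        show x - ((C : E) ^ (p - 1)) x = _
        rw [hcastpow]
      rw [← e1, ← e2]
      exact h
    rw [h']
    have : x - C ^ (p - 1) • x = (1 - C ^ (p - 1)) • x := by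
      rw [sub_smul, one_smul]
    rw [this]
    exact Dv.of_dvd ((dvd_sub_comm).mp hCN) x
  have hQTi : ∀ (i : ℕ) (x : M), Q (T^[i] x) = T^[i] (Q x) := by
    intro i x
    induction i with
    | zero => rfl
    | succ i ih =>
      rw [Function.iterate_succ_apply', Function.iterate_succ_apply', ← ih]
      exact congrArg (fun f : E => f (T^[i] x)) hQT
  have hQapply : ∀ x : M, Q x = ∑ i ∈ Finset.range (p - 1), C ^ (p - 1 - 1 - i) • T^[i] x := by
    intro x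
    have : Q x = ∑ i ∈ Finset.range (p - 1), (T' ^ i * (C : E) ^ (p - 1 - 1 - i)) x := by
      simp only [Q]
      exact AddMonoidHom.finsetSum_apply _ _ _
    rw [this]
    refine Finset.sum_congr rfl fun i _ => ?_
    show (T' ^ i) (((C : E) ^ (p - 1 - 1 - i)) x) = _
    rw [hcastpow, map_zsmul, AddMonoid.End.coe_pow]
    rfl
  -- step 3
  set e : ℤ := ∑ i ∈ Finset.range (p - 1), C ^ (p - 1 - 1 - i) * c ^ i with he
  have hQe : ∀ x : M, Dv (p : ℤ) (T x - c • x) → Dv (p : ℤ) (Q x - e • x) := by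
    intro x hx
    rw [hQapply, he, Finset.sum_smul, ← Finset.sum_sub_distrib]
    refine Dv.sum _ _ fun i _ => ?_
    rw [mul_smul, ← smul_sub]
    exact (hx.iterate T i).zsmul _
  have hpe : ¬ (p : ℤ) ∣ e := by
    intro hpe
    have h1 : (p : ℤ) ∣ e - ((p - 1 : ℕ) : ℤ) * c ^ (p - 1 - 1) := by
      have : ((p - 1 : ℕ) : ℤ) * c ^ (p - 1 - 1)
          = ∑ i ∈ Finset.range (p - 1), c ^ (p - 1 - 1 - i) * c ^ i := by
        rw [Finset.sum_congr rfl (g := fun _ => c ^ (p - 1 - 1))]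
        · simp
        · intro i hi
          rw [← pow_add]
          congr 1
          have := Finset.mem_range.mp hi
          omega
      rw [this, he, ← Finset.sum_sub_distrib]
      refine Finset.dvd_sum fun i _ => ?_
      rw [← sub_mul]
      exact Dvd.dvd.mul_right (hCc.trans (sub_dvd_pow_sub_pow C c _)) _
    have h2 : (p : ℤ) ∣ ((p - 1 : ℕ) : ℤ) * c ^ (p - 1 - 1) := (dvd_sub_right hpe).mp h1
    rcases hPp.dvd_or_dvd h2 with h3 | h3
    · have := Nat.le_of_dvd hN (Int.natCast_dvd_natCast.mp h3)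
      omega
    · exact hc (hPp.dvd_of_dvd_pow h3)
  have hcope : IsCoprime e (p : ℤ) := (hPp.coprime_iff_not_dvd.mpr hpe).symm
  set y₁ := Q x₁ with hy₁
  set y₂ := Q x₂ with hy₂
  have hye₁ : Dv (p : ℤ) (y₁ - e • x₁) := hQe x₁ h₁'
  have hye₂ : Dv (p : ℤ) (y₂ - e • x₂) := hQe x₂ h₂'
  have hy₁n : ¬ Dv (p : ℤ) y₁ := by
    intro h
    apply hx₁'
    apply Dv.of_isCoprime hcope
    have : e • x₁ = y₁ - (y₁ - e • x₁) := by abel
    rw [this]
    exact h.sub hye₁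
  -- step 4
  set w := Q u0 with hw
  have hwi : ∀ l : ℕ, Dv ((p : ℤ) ^ (2 * j + 1)) (Q (T^[l] u0) - C ^ l • w) := by
    intro l
    rw [hQTi]
    exact (hQeig u0).iterate T l
  have key : ∀ (x : M) (b : ℕ → ℤ) (n : ℤ),
      n • x = ∑ i ∈ Finset.range (p - 1), b i • T^[i] u0 →
      Dv ((p : ℤ) ^ (2 * j + 1))
        (n • Q x - (∑ i ∈ Finset.range (p - 1), b i * C ^ i) • w) := by
    intro x b n hx
    rw [← map_zsmul Q, hx, map_sum, Finset.sum_smul, ← Finset.sum_sub_distrib]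
    refine Dv.sum _ _ fun i _ => ?_
    rw [map_zsmul, mul_smul, ← smul_sub]
    exact (hwi i).zsmul _
  have hb₁ : (n₁ * n₂) • x₁ = ∑ i ∈ Finset.range (p - 1), (n₂ * a₁ i) • T^[i] u0 := by
    rw [mul_comm, mul_smul, ha₁, Finset.smul_sum]
    exact Finset.sum_congr rfl fun i _ => (mul_smul _ _ _).symm
  have hb₂ : (n₁ * n₂) • x₂ = ∑ i ∈ Finset.range (p - 1), (n₁ * a₂ i) • T^[i] u0 := by
    rw [mul_smul, ha₂, Finset.smul_sum]
    exact Finset.sum_congr rfl fun i _ => (mul_smul _ _ _).symm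
  have k₁ := key x₁ _ _ hb₁
  have k₂ := key x₂ _ _ hb₂
  set A₁ : ℤ := ∑ i ∈ Finset.range (p - 1), n₂ * a₁ i * C ^ i with hA₁
  set A₂ : ℤ := ∑ i ∈ Finset.range (p - 1), n₁ * a₂ i * C ^ i with hA₂
  rw [← hy₁] at k₁
  rw [← hy₂] at k₂
  have hpj : (p : ℤ) ^ j ≠ 0 := pow_ne_zero _ hP0
  have k₃ : Dv ((p : ℤ) ^ (j + 1)) ((m * A₂) • y₁ - (m * A₁) • y₂) := by
    apply Dv.cancel htf hpj
    have e1 : (p : ℤ) ^ j * (p : ℤ) ^ (j + 1) = (p : ℤ) ^ (2 * j + 1) := by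
      rw [← pow_add]; congr 1; omega
    have e2 : (p : ℤ) ^ j • ((m * A₂) • y₁ - (m * A₁) • y₂)
        = A₂ • ((n₁ * n₂) • y₁ - A₁ • w) - A₁ • ((n₁ * n₂) • y₂ - A₂ • w) := by
      rw [hm]
      simp only [smul_sub, ← mul_smul]
      rw [mul_comm A₂ A₁]
      have f1 : (p : ℤ) ^ j * (m * A₂) = A₂ * ((p : ℤ) ^ j * m) := by ring
      have f2 : (p : ℤ) ^ j * (m * A₁) = A₁ * ((p : ℤ) ^ j * m) := by ring
      rw [f1, f2]
      abel
    rw [e1, e2]
    exact (k₁.zsmul _).sub (k₂.zsmul _)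
  -- step 5
  have hcopm : IsCoprime m (p : ℤ) := (hPp.coprime_iff_not_dvd.mpr hpm).symm
  have k₄ : ¬ (p : ℤ) ^ (j + 1) ∣ m * A₁ := by
    intro h
    have hA : (p : ℤ) ^ (j + 1) ∣ A₁ := (hcopm.symm.pow_left).dvd_of_dvd_mul_left h
    apply hy₁n
    apply Dv.of_isCoprime hcopm
    apply Dv.cancel htf hpj
    rw [← pow_succ, ← mul_smul, ← hm]
    have : (n₁ * n₂) • y₁ = ((n₁ * n₂) • y₁ - A₁ • w) + A₁ • w := by abel
    rw [this]
    exact (k₁.mono (pow_dvd_pow _ (by omega))).add (Dv.of_dvd hA w)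
  -- steps 6, 7
  obtain ⟨a', b', hab, hd⟩ := descent htf hP0 y₁ y₂ (j + 1) _ _ k₃ k₄
  have hb' : ¬ (p : ℤ) ∣ b' := by
    intro hb'
    have ha' : ¬ (p : ℤ) ∣ a' := fun ha' => hab ⟨ha', hb'⟩
    apply hy₁n
    apply Dv.of_isCoprime (hPp.coprime_iff_not_dvd.mpr ha').symm
    have : a' • y₁ = (a' • y₁ - b' • y₂) + b' • y₂ := by abel
    rw [this]
    exact hd.add (Dv.of_dvd hb' y₂)
  have hcopb : IsCoprime b' (p : ℤ) := (hPp.coprime_iff_not_dvd.mpr hb').symm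
  obtain ⟨r, t, hrt⟩ := hcopb
  have hfinal : Dv (p : ℤ) (x₂ - (r * a') • x₁) := by
    apply Dv.of_isCoprime hcope
    apply Dv.of_isCoprime (show IsCoprime b' (p : ℤ) from ⟨r, t, hrt⟩)
    have : b' • e • (x₂ - (r * a') • x₁)
        = - (b' • (y₂ - e • x₂)) + (r * b') • a' • (y₁ - e • x₁) - (a' • y₁ - b' • y₂)
          + (t * p) • a' • y₁ := by
      have h1 : (1 : ℤ) • a' • y₁ = (r * b' + t * p) • a' • y₁ := by rw [hrt]
      rw [one_smul, add_smul] at h1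
      simp only [smul_sub, ← mul_smul] at h1 ⊢
      have f1 : b' * (e * (r * a')) = r * b' * (a' * e) := by ring
      rw [f1, sub_add_eq_add_sub, eq_sub_iff_add_eq]
      have f2 : (r * b' * a') • y₁ + (t * ↑p * a') • y₁ = a' • y₁ := h1.symm
      rw [← f2]
      abel
    rw [this]
    refine (((hye₂.zsmul _).neg.add ((hye₁.zsmul _).zsmul _)).sub hd).add ?_
    exact Dv.of_dvd (Dvd.intro_left t rfl) _
  obtain ⟨y, hy⟩ := hfinal
  exact ⟨r * a', y, by rw [← hy]; abel⟩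

end Fermat.Agent.S14.U2
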