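import Fermat.Agent.S14.Defs

set_option autoImplicit false
set_option linter.unusedSectionVars false

/-!
# S14, block U2: closure properties of `IsEigenUnit`, and torsion eigen-units are `p`-th powers
-/

namespace Fermat.Agent.S14.U2

open NumberField

variable {p : ℕ} [Fact p.Prime] {K : Type*} [Field K] [NumberField K]
  [IsCyclotomicExtension {p} ℚ K]

/-- The action of `σ` on units of `𝓞 K`. -/
noncomputable def sigmaU (σ : K ≃ₐ[ℚ] K) : (𝓞 K)ˣ →* (𝓞 K)ˣ :=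
  Units.map (MulSemiringAction.toRingHom (K ≃ₐ[ℚ] K) (𝓞 K) σ).toMonoidHom

theorem coe_sigmaU (σ : K ≃ₐ[ℚ] K) (v : (𝓞 K)ˣ) :
    ((sigmaU σ v : (𝓞 K)ˣ) : 𝓞 K) = σ • (v : 𝓞 K) := rfl

theorem isEigenUnit_one {ζ : K} : IsEigenUnit p ζ (1 : (𝓞 K)ˣ) := by
  intro σ b _
  exact ⟨1, by simp⟩

theorem isEigenUnit_mul {ζ : K} {u v : (𝓞 K)ˣ} (hu : IsEigenUnit p ζ u)
    (hv : IsEigenUnit p ζ v) : IsEigenUnit p ζ (u * v) := by
  intro σ b hb
  obtain ⟨a, ha⟩ := hu σ b hb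
  obtain ⟨c, hc⟩ := hv σ b hb
  refine ⟨a * c, ?_⟩
  rw [Units.val_mul, smul_mul', ha, hc, Units.val_mul]
  ring

theorem isEigenUnit_inv {ζ : K} {u : (𝓞 K)ˣ} (hu : IsEigenUnit p ζ u) :
    IsEigenUnit p ζ u⁻¹ := by
  intro σ b hb
  obtain ⟨a, ha⟩ := hu σ b hb
  refine ⟨a⁻¹, ?_⟩
  have h1 : sigmaU σ u = u ^ (b ^ 2) * a ^ p := by
    ext1
    rw [coe_sigmaU, ha]
    simp
  have h2 : sigmaU σ u⁻¹ = u⁻¹ ^ (b ^ 2) * a⁻¹ ^ p := by
    rw [map_inv, h1, mul_inv, inv_pow, inv_pow]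
  have h3 := congrArg (fun x : (𝓞 K)ˣ ↦ (x : 𝓞 K)) h2
  rw [← coe_sigmaU]
  simpa using h3

theorem isEigenUnit_pow {ζ : K} {u : (𝓞 K)ˣ} (hu : IsEigenUnit p ζ u) (n : ℕ) :
    IsEigenUnit p ζ (u ^ n) := by
  induction n with
  | zero => rw [pow_zero]; exact isEigenUnit_one
  | succ n ih => rw [pow_succ]; exact isEigenUnit_mul ih hu

theorem isEigenUnit_zpow {ζ : K} {u : (𝓞 K)ˣ} (hu : IsEigenUnit p ζ u) (n : ℤ) :
    IsEigenUnit p ζ (u ^ n) := by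
  cases n with
  | ofNat n => rw [Int.ofNat_eq_natCast, zpow_natCast]; exact isEigenUnit_pow hu n
  | negSucc n => rw [zpow_negSucc]; exact isEigenUnit_inv (isEigenUnit_pow hu _)

theorem isEigenUnit_pow_p {ζ : K} (v : (𝓞 K)ˣ) : IsEigenUnit p ζ (v ^ p) := by
  intro σ b _
  refine ⟨sigmaU σ v * (v ^ (b ^ 2))⁻¹, ?_⟩
  have h2 : sigmaU σ (v ^ p) = (v ^ p) ^ (b ^ 2) * (sigmaU σ v * (v ^ (b ^ 2))⁻¹) ^ p := by
    rw [map_pow, mul_pow, inv_pow, ← pow_mul, ← pow_mul, mul_comm p, mul_comm (v ^ _),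
      inv_mul_cancel_right]
  have h3 := congrArg (fun x : (𝓞 K)ˣ ↦ (x : 𝓞 K)) h2
  rw [← coe_sigmaU]
  simpa using h3

theorem exists_sigma_two (hp3 : 3 ≤ p) {ζ : K} (hζ : IsPrimitiveRoot ζ p) :
    ∃ σ : K ≃ₐ[ℚ] K, σ ζ = ζ ^ 2 := by
  have hp : p.Prime := Fact.out
  have hcop : Nat.Coprime 2 p := by
    rw [Nat.coprime_comm, Nat.Prime.coprime_iff_not_dvd hp]
    intro h
    have := Nat.le_of_dvd (by norm_num) h
    omega
  let e : (ZMod p)ˣ := ZMod.unitOfCoprime 2 hcop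
  refine ⟨(IsCyclotomicExtension.Rat.galEquivZMod p K).symm e, ?_⟩
  rw [IsCyclotomicExtension.Rat.galEquivZMod_apply_of_pow_eq p K _ hζ.pow_eq_one,
    MulEquiv.apply_symm_apply]
  have : ((e : ZMod p)).val = 2 := by
    have : Fact (2 < p) := ⟨by omega⟩
    change ((2 : ℕ) : ZMod p).val = 2
    rw [ZMod.val_natCast, Nat.mod_eq_of_lt (by omega)]
  rw [this]

theorem torsion_eigen_pow (hp3 : 3 ≤ p) {ζ : K} (hζ : IsPrimitiveRoot ζ p) (ξ : (𝓞 K)ˣ)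
    (hξ : ξ ∈ NumberField.Units.torsion K) (he : IsEigenUnit p ζ ξ) :
    ∃ v : (𝓞 K)ˣ, ξ = v ^ p := by
  have hp : p.Prime := Fact.out
  have hodd : Odd p := hp.odd_of_ne_two (by omega)
  have hfin : ∀ x : (𝓞 K)ˣ, IsOfFinOrder x → IsOfFinOrder (((x : 𝓞 K) : K)) := fun x hx ↦
    (((algebraMap (𝓞 K) K).toMonoidHom.comp (Units.coeHom _)).isOfFinOrder hx)
  have hξ' : IsOfFinOrder ξ := hξ
  obtain ⟨i, -, hi⟩ := hζ.exists_pow_or_neg_mul_pow_of_isOfFinOrder hodd (hfin ξ hξ')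
  obtain ⟨σ, hσ⟩ := exists_sigma_two hp3 hζ
  obtain ⟨v, hv⟩ := he σ 2 hσ
  -- pass to `K`
  have hvK : σ ((ξ : 𝓞 K) : K) = ((ξ : 𝓞 K) : K) ^ 4 * ((v : 𝓞 K) : K) ^ p := by
    have h0 := congrArg (fun x : 𝓞 K ↦ (x : K)) hv
    have h1 : ((σ • (ξ : 𝓞 K) : 𝓞 K) : K) = σ ((ξ : 𝓞 K) : K) := rfl
    simp only [h1] at h0
    rw [h0]
    simp
  -- `v` has finite order
  have hvfin : IsOfFinOrder v := by
    have h1 : v ^ p = sigmaU σ ξ * (ξ ^ (2 ^ 2))⁻¹ := by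
      rw [eq_mul_inv_iff_mul_eq, mul_comm]
      ext1
      rw [coe_sigmaU, hv]
      simp
    have h2 : IsOfFinOrder (v ^ p) := by
      rw [h1]
      exact ((sigmaU σ).isOfFinOrder hξ').mul (hξ'.pow).inv
    exact (isOfFinOrder_pow.mp h2).resolve_right hp.ne_zero
  obtain ⟨s, -, hs⟩ := hζ.exists_pow_or_neg_mul_pow_of_isOfFinOrder hodd (hfin v hvfin)
  have hζp : ζ ^ p = 1 := hζ.pow_eq_one
  have hpow : ∀ k : ℕ, (ζ ^ k) ^ p = 1 := fun k ↦ by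
    rw [← pow_mul, mul_comm, pow_mul, hζp, one_pow]
  have hvp : ((v : 𝓞 K) : K) ^ p = 1 ∨ ((v : 𝓞 K) : K) ^ p = -1 := by
    rcases hs with h | h
    · left; rw [h, hpow]
    · right; rw [h, neg_pow, hodd.neg_one_pow, hpow]; ring
  have hζ0 : ζ ≠ 0 := hζ.ne_zero hp.ne_zero
  have hz : ζ ^ (2 * i) ≠ 0 := pow_ne_zero _ hζ0
  -- `ζ ^ (2 i) = ± 1`
  have h2i : ζ ^ (2 * i) = 1 ∨ ζ ^ (2 * i) = -1 := by
    rcases hi with h | h
    · rw [h, map_pow, hσ] at hvK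
      have e : ζ ^ (2 * i) * 1 = ζ ^ (2 * i) * (ζ ^ (2 * i) * ((v : 𝓞 K) : K) ^ p) := by
        calc ζ ^ (2 * i) * 1 = (ζ ^ 2) ^ i := by rw [mul_one, pow_mul]
          _ = (ζ ^ i) ^ 4 * ((v : 𝓞 K) : K) ^ p := hvK
          _ = _ := by ring
      have e2 := mul_left_cancel₀ hz e
      rcases hvp with h' | h'
      · left; rw [h', mul_one] at e2; exact e2.symm
      · right; rw [h'] at e2; linear_combination e2
    · rw [h, map_neg, map_pow, hσ] at hvK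
      have e : ζ ^ (2 * i) * (-1) = ζ ^ (2 * i) * (ζ ^ (2 * i) * ((v : 𝓞 K) : K) ^ p) := by
        calc ζ ^ (2 * i) * (-1) = -(ζ ^ 2) ^ i := by rw [pow_mul]; ring
          _ = (-ζ ^ i) ^ 4 * ((v : 𝓞 K) : K) ^ p := hvK
          _ = _ := by ring
      have e2 := mul_left_cancel₀ hz e
      rcases hvp with h' | h'
      · right; rw [h', mul_one] at e2; exact e2.symm
      · left; rw [h'] at e2; linear_combination e2
  have hne : ζ ^ (2 * i) ≠ -1 := by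
    intro h
    have h1 := hpow (2 * i)
    rw [h, hodd.neg_one_pow] at h1
    norm_num at h1
  have h1 : ζ ^ (2 * i) = 1 := h2i.resolve_right hne
  have hdvd : p ∣ i := by
    have := (hζ.pow_eq_one_iff_dvd _).mp h1
    rcases (Nat.Prime.dvd_mul hp).mp this with h | h
    · have := Nat.le_of_dvd (by norm_num) h
      omega
    · exact h
  have hi1 : ζ ^ i = 1 := (hζ.pow_eq_one_iff_dvd _).mpr hdvd
  rw [hi1] at hi
  rcases hi with h | h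
  · refine ⟨1, ?_⟩
    rw [one_pow]
    ext
    simpa using h
  · refine ⟨-1, ?_⟩
    rw [hodd.neg_one_pow]
    ext
    simpa using h

end Fermat.Agent.S14.U2
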