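import Fermat.Agent.S14.Defs

/-!
# S14-U2-UN : `unit_pth_power_of`

Assembly of the blueprint node `unit_pth_power` from its four dependencies, given as hypotheses.
-/

set_option autoImplicit false

namespace Fermat.Agent.S14.U2

open NumberField

theorem unit_pth_power_of {p : ℕ} [Fact p.Prime] {K : Type*} [Field K] [NumberField K]
    [IsCyclotomicExtension {p} ℚ K] {ζ : K} (hζ : IsPrimitiveRoot ζ p)
    (hunit : IsUnit (eta p hζ.toInteger)) (heig : IsEigenUnit p ζ hunit.unit)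
    (hloc : ∀ (k : ℕ) (x : 𝓞 K), eta p hζ.toInteger ^ k - x ^ p ∈
      (Ideal.span {hζ.toInteger - 1} : Ideal (𝓞 K)) ^ 3 → p ∣ k)
    (hdim : ∀ u₁ u₂ : (𝓞 K)ˣ, IsEigenUnit p ζ u₁ → IsEigenUnit p ζ u₂ →
      (¬ ∃ v : (𝓞 K)ˣ, u₁ = v ^ p) → ∃ (k : ℕ) (v : (𝓞 K)ˣ), u₂ = u₁ ^ k * v ^ p)
    (u : (𝓞 K)ˣ) (hu : IsEigenUnit p ζ u) (x : 𝓞 K)
    (hx : (u : 𝓞 K) - x ^ p ∈ (Ideal.span {hζ.toInteger - 1} : Ideal (𝓞 K)) ^ 3) :
    ∃ v : (𝓞 K)ˣ, u = v ^ p := by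
  have hp : p.Prime := Fact.out
  have hcoe : ((hunit.unit : (𝓞 K)ˣ) : 𝓞 K) = eta p hζ.toInteger := hunit.unit_spec
  -- `eta` is not a `p`-th power
  have hnot : ¬ ∃ v : (𝓞 K)ˣ, hunit.unit = v ^ p := by
    rintro ⟨v, hv⟩
    have h1 : p ∣ 1 := by
      apply hloc 1 (v : 𝓞 K)
      have : eta p hζ.toInteger = (v : 𝓞 K) ^ p := by
        rw [← hcoe, hv, Units.val_pow_eq_pow_val]
      rw [pow_one, this, sub_self]
      exact Ideal.zero_mem _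
    exact hp.one_lt.ne' (Nat.dvd_one.mp h1)
  obtain ⟨k, v, hkv⟩ := hdim hunit.unit u heig hu hnot
  have hk : p ∣ k := by
    apply hloc k (x * ((v⁻¹ : (𝓞 K)ˣ) : 𝓞 K))
    have hu' : (u : 𝓞 K) = eta p hζ.toInteger ^ k * (v : 𝓞 K) ^ p := by
      rw [hkv, Units.val_mul, Units.val_pow_eq_pow_val, Units.val_pow_eq_pow_val, hcoe]
    have hvv : (v : 𝓞 K) * ((v⁻¹ : (𝓞 K)ˣ) : 𝓞 K) = 1 := Units.mul_inv v
    have key : eta p hζ.toInteger ^ k - (x * ((v⁻¹ : (𝓞 K)ˣ) : 𝓞 K)) ^ p =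
        ((u : 𝓞 K) - x ^ p) * (((v⁻¹ : (𝓞 K)ˣ) : 𝓞 K)) ^ p := by
      rw [hu', sub_mul, mul_assoc, ← mul_pow, hvv, one_pow, mul_one, mul_pow]
    rw [key]
    exact Ideal.mul_mem_right _ _ hx
  obtain ⟨m, rfl⟩ := hk
  refine ⟨hunit.unit ^ m * v, ?_⟩
  rw [hkv, mul_pow, ← pow_mul, mul_comm m p]

end Fermat.Agent.S14.U2
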